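import Fermat.Agent.DivPoly.Mul

set_option autoImplicit false
set_option linter.unusedSectionVars false

/-! # The number of `n`-torsion points is `n ^ 2`

`card_torsion`: for an elliptic curve over an algebraically closed field `K` with `n ≠ 0` in `K`,
the `n`-torsion has exactly `n ^ 2` elements.
-/

namespace Fermat.Agent.DivPoly

open Fermat.Agent.ECRed Polynomial

variable {K : Type*} [Field K] [DecidableEq K] [IsAlgClosed K] {W : WeierstrassCurve.Affine K}

lemma Ψ₂Sq_ne_zero_of_Δ (hΔ : W.Δ ≠ 0) : W.Ψ₂Sq ≠ 0 := by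
  intro h
  apply hΔ
  have h3 := congrArg (fun p => coeff p 3) h
  have h2 := congrArg (fun p => coeff p 2) h
  have h1 := congrArg (fun p => coeff p 1) h
  have h0 := congrArg (fun p => coeff p 0) h
  simp only [WeierstrassCurve.Ψ₂Sq, coeff_add, coeff_C_mul, coeff_X_pow, coeff_X, coeff_C,
    coeff_zero] at h3 h2 h1 h0
  norm_num at h3 h2 h1 h0
  rw [WeierstrassCurve.Δ, h2, h0]
  have : W.b₄ ^ 3 * 8 = (2 * W.b₄) ^ 3 := by ring
  have h1' : 2 * W.b₄ = 0 := by
    rcases h1 with h | h
    · rw [h, zero_mul]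
    · rw [h, mul_zero]
  linear_combination (-(2 * W.b₄) ^ 2) * h1'

/-- existence of a good fibre -/
lemma exists_good_fibre (hΔ : W.Δ ≠ 0) {n : ℕ} (hn : (n : K) ≠ 0) :
    ∃ Q : W.Point, Q ≠ 0 ∧ Q ≠ -Q ∧ (phn W n - C (xN Q) * psn W n).roots.Nodup := by
  classical
  set w := derivative (phn W n) * psn W n - phn W n * derivative (psn W n) with hw
  have hw0 : w ≠ 0 := wronskian_ne_zero hn
  set B : Finset K := (w.roots.toFinset.image fun x => (phn W n).eval x / (psn W n).eval x) ∪
    W.Ψ₂Sq.roots.toFinset with hB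
  obtain ⟨c, hc⟩ := Infinite.exists_notMem_finset B
  obtain ⟨Q, hQ, hQc⟩ := exists_point hΔ c
  rw [hB, Finset.mem_union, not_or] at hc
  refine ⟨Q, hQ, ?_, ?_⟩
  · intro h0
    apply hc.2
    rw [Multiset.mem_toFinset, mem_roots (Ψ₂Sq_ne_zero_of_Δ hΔ)]
    have h1 : Q + Q = 0 := by
      nth_rewrite 1 [h0]; exact neg_add_cancel Q
    have h2 := psi_eq_zero (KummerLine.ofCurve W) hQ h1
    rw [show (KummerLine.ofCurve W).N Q = c from hQc] at h2
    simp only [KummerLine.psi, KummerLine.ofCurve] at h2
    simp only [IsRoot, WeierstrassCurve.Ψ₂Sq, eval_add, eval_mul, eval_C, eval_pow, eval_X]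
    exact h2
  · rw [hQc, Multiset.nodup_iff_count_le_one]
    intro x
    rw [count_roots]
    by_contra hlt
    push Not at hlt
    have hg0 : phn W n - C c * psn W n ≠ 0 := by
      intro h0
      rw [h0] at hlt
      simp at hlt
    have hroot : (phn W n - C c * psn W n).IsRoot x := by
      rw [← rootMultiplicity_pos hg0]; omega
    have hder : (derivative (phn W n - C c * psn W n)).IsRoot x := by
      have := (one_lt_rootMultiplicity_iff_isRoot hg0).mp hlt
      exact this.2
    simp only [IsRoot, eval_sub, eval_mul, eval_C, derivative_sub, derivative_mul, derivative_C,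
      zero_mul, zero_add] at hroot hder
    have hpsn : (psn W n).eval x ≠ 0 := by
      intro h0
      obtain ⟨P, hP, hPx⟩ := exists_point hΔ x
      apply not_common_root hP n
      rw [hPx]
      refine ⟨?_, h0⟩
      rw [h0, mul_zero, sub_zero] at hroot
      exact hroot
    apply hc.1
    rw [Finset.mem_image]
    refine ⟨x, ?_, ?_⟩
    · rw [Multiset.mem_toFinset, mem_roots hw0, hw, IsRoot, eval_sub, eval_mul, eval_mul]
      linear_combination (psn W n).eval x * hder - (derivative (psn W n)).eval x * hroot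
    · rw [div_eq_iff hpsn]
      linear_combination hroot

theorem card_torsion (hΔ : W.Δ ≠ 0) {n : ℕ} (hn : (n : K) ≠ 0) :
    Nat.card {P : W.Point // n • P = 0} = n ^ 2 := by
  classical
  obtain ⟨Q, hQ, hQ', hnodup⟩ := exists_good_fibre hΔ hn
  set g := phn W n - C (xN Q) * psn W n with hg
  have hn0 : n ≠ 0 := by rintro rfl; simp at hn
  have hn2 : 0 < n ^ 2 := pow_pos (Nat.pos_of_ne_zero hn0) 2
  have hdeg : g.natDegree = n ^ 2 := by
    have h1 : (phn W n).natDegree = n ^ 2 := by
      rw [phn, WeierstrassCurve.natDegree_Φ]; simp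
    have h2 : (psn W n).natDegree ≤ n ^ 2 - 1 := by
      have := W.natDegree_ΨSq_le n; simpa [psn] using this
    rw [hg, natDegree_sub_eq_left_of_natDegree_lt, h1]
    rw [h1]
    calc (C (xN Q) * psn W n).natDegree ≤ (psn W n).natDegree := natDegree_C_mul_le _ _
      _ < n ^ 2 := by omega
  have hg0 : g ≠ 0 := by
    intro h0; rw [h0, natDegree_zero] at hdeg; omega
  have hcard : g.roots.toFinset.card = n ^ 2 := by
    rw [Multiset.toFinset_card_of_nodup hnodup, ← hdeg]
    exact (IsAlgClosed.splits g).natDegree_eq_card_roots.symm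
  have hfib : ∀ P : W.Point, n • P = Q → P ≠ 0 := by
    rintro P hP rfl
    rw [smul_zero] at hP
    exact hQ hP.symm
  -- the fibre
  have e1 : {P : W.Point // n • P = Q} ≃ g.roots.toFinset := by
    refine Equiv.ofBijective (fun P => ⟨xN P.1, ?_⟩) ⟨?_, ?_⟩
    · rw [Multiset.mem_toFinset, mem_roots hg0]
      have hP0 := hfib P.1 P.2
      have := xN_nsmul hP0 (n := n) (by rw [P.2]; exact hQ)
      rw [P.2] at this
      rw [IsRoot, hg, eval_sub, eval_mul, eval_C, ← this]
      ring
    · rintro ⟨P, hP⟩ ⟨P', hP'⟩ h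
      simp only [Subtype.mk.injEq] at h
      apply Subtype.ext
      show P = P'
      rcases eq_or_neg_of_xN (hfib P hP) (hfib P' hP') h with h | h
      · exact h
      · exfalso
        apply hQ'
        rw [← hP', ← smul_neg, ← h, hP]
        exact hP'
    · rintro ⟨x, hx⟩
      rw [Multiset.mem_toFinset, mem_roots hg0, IsRoot, hg, eval_sub, eval_mul, eval_C] at hx
      obtain ⟨P, hP, hPx⟩ := exists_point hΔ x
      have hpsn : (psn W n).eval x ≠ 0 := by
        intro h0
        apply not_common_root hP n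
        rw [hPx]
        refine ⟨?_, h0⟩
        rw [h0, mul_zero, sub_zero] at hx
        exact hx
      have hnP : n • P ≠ 0 := by
        intro h0
        rw [nsmul_eq_zero_iff hP, hPx] at h0
        exact hpsn h0
      have h1 := xN_nsmul hP hnP
      rw [hPx] at h1
      have h2 : xN (n • P) = xN Q := by
        apply mul_right_cancel₀ hpsn
        linear_combination h1 + hx
      rcases eq_or_neg_of_xN hnP hQ h2 with h | h
      · exact ⟨⟨P, h⟩, by simp [hPx]⟩
      · refine ⟨⟨-P, by rw [smul_neg, h, neg_neg]⟩, ?_⟩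
        simp [hPx]
  have hne : Nonempty {P : W.Point // n • P = Q} := by
    have : g.roots.toFinset.Nonempty := by
      rw [← Finset.card_pos, hcard]; exact hn2
    obtain ⟨x, hx⟩ := this
    exact ⟨e1.symm ⟨x, hx⟩⟩
  obtain ⟨P0, hP0⟩ := hne
  have e2 : {P : W.Point // n • P = 0} ≃ {P : W.Point // n • P = Q} :=
    { toFun := fun P => ⟨P.1 + P0, by rw [smul_add, P.2, hP0, zero_add]⟩
      invFun := fun P => ⟨P.1 - P0, by rw [smul_sub, P.2, hP0, sub_self]⟩
      left_inv := fun P => by simp
      right_inv := fun P => by simp }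
  rw [Nat.card_congr (e2.trans e1), Nat.card_eq_fintype_card, Fintype.card_coe, hcard]

theorem card_torsionBy (hΔ : W.Δ ≠ 0) {n : ℕ} (hn : (n : K) ≠ 0) :
    Nat.card (Submodule.torsionBy ℤ W.Point n) = n ^ 2 := by
  rw [← card_torsion hΔ hn]
  apply Nat.card_congr
  refine Equiv.subtypeEquivRight fun P => ?_
  rw [Submodule.mem_torsionBy_iff, natCast_zsmul]

end Fermat.Agent.DivPoly
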