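import Fermat.Agent.DivPoly.Seq

set_option autoImplicit false
set_option linter.unusedSectionVars false

/-! # Universal identities between the division polynomials -/

namespace Fermat.Agent.DivPoly

open Fermat.Agent.ECRed Polynomial

universe u

/-- every element of an algebraically closed field is an `x`-coordinate -/
lemma exists_y {K : Type*} [Field K] [IsAlgClosed K] (W : WeierstrassCurve.Affine K) (x : K) :
    ∃ y, W.Equation x y := by
  have hd : (X ^ 2 + (C (W.a₁ * x + W.a₃) * X + C (-(x ^ 3 + W.a₂ * x ^ 2 + W.a₄ * x + W.a₆)))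
      : K[X]).degree = 2 := by
    compute_degree!
  obtain ⟨y, hy⟩ := IsAlgClosed.exists_root _ (by rw [hd]; norm_num)
  refine ⟨y, ?_⟩
  rw [WeierstrassCurve.Affine.equation_iff]
  simp only [IsRoot, eval_add, eval_pow, eval_X, eval_mul, eval_C] at hy
  linear_combination hy

section Poly

variable {R : Type*} [CommRing R] (W : WeierstrassCurve R)

/-- numerator of the multiplication by `n` map -/
noncomputable def phn (n : ℕ) : R[X] := W.Φ n
/-- denominator of the multiplication by `n` map -/
noncomputable def psn (n : ℕ) : R[X] := W.ΨSq n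

lemma psn_eq (n : ℕ) : psn W n = W.preΨ' n ^ 2 * if Even n then W.Ψ₂Sq else 1 := by
  rw [psn, WeierstrassCurve.ΨSq_ofNat]

lemma phn_succ (n : ℕ) : phn W (n + 1) = X * psn W (n + 1) -
    W.preΨ' (n + 2) * W.preΨ' n * (if Even n then W.Ψ₂Sq else 1) := by
  rw [phn, psn_eq]
  push_cast
  rw [WeierstrassCurve.Φ_ofNat]
  simp only [Nat.even_add_one, ite_not, mul_assoc]

lemma phn_zero : phn W 0 = 1 := by simp [phn]
lemma psn_zero : psn W 0 = 0 := by simp [psn]
lemma phn_one : phn W 1 = X := by simp [phn]
lemma psn_one : psn W 1 = 1 := by simp [psn]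
lemma psn_two : psn W 2 = W.Ψ₂Sq := by simp [psn]
lemma phn_two : phn W 2 = X ^ 4 - C W.b₄ * X ^ 2 - C (2 * W.b₆) * X - C W.b₈ := by
  simp [phn]

lemma map_phn {S : Type*} [CommRing S] (f : R →+* S) (n : ℕ) :
    phn (W.map f) n = (phn W n).map f := by
  simp only [phn, WeierstrassCurve.map_Φ]

lemma map_psn {S : Type*} [CommRing S] (f : R →+* S) (n : ℕ) :
    psn (W.map f) n = (psn W n).map f := by
  simp only [psn, WeierstrassCurve.map_ΨSq]

theorem id0 (n : ℕ) : psn W (n + 2) * psn W n = (phn W (n + 1) - X * psn W (n + 1)) ^ 2 := by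
  rw [phn_succ, psn_eq, psn_eq W n]
  have : Even (n + 2) ↔ Even n := by simp [Nat.even_add]
  simp only [this]
  split_ifs <;> ring

/-- homogeneous form for `x(P+Q) x(P-Q)` -/
noncomputable def F2h (n1 d1 n2 d2 : R[X]) : R[X] :=
  (n1 * n2) ^ 2 - C W.b₄ * (n1 * n2) * (d1 * d2) - C W.b₆ * (n1 * d2 + d1 * n2) * (d1 * d2) -
    C W.b₈ * (d1 * d2) ^ 2

/-- homogeneous form for `x(P+Q) + x(P-Q)` -/
noncomputable def F1h (n1 d1 n2 d2 : R[X]) : R[X] :=
  2 * (n1 * d2 + d1 * n2) * (n1 * n2) + C W.b₂ * (n1 * n2) * (d1 * d2) +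
    C W.b₄ * (n1 * d2 + d1 * n2) * (d1 * d2) + C W.b₆ * (d1 * d2) ^ 2

/-- The two further identities -/
def Ids (n : ℕ) : Prop :=
  phn W (n + 2) * psn W n + psn W (n + 2) * phn W n = F1h W (phn W (n + 1)) (psn W (n + 1)) X 1 ∧
  phn W (n + 2) * phn W n = F2h W (phn W (n + 1)) (psn W (n + 1)) X 1

lemma Ids.map {n : ℕ} (h : Ids W n) {S : Type*} [CommRing S] (f : R →+* S) :
    Ids (W.map f) n := by
  obtain ⟨h1, h2⟩ := h
  simp only [Ids, map_phn, map_psn]
  have h1' := congrArg (Polynomial.map f) h1
  have h2' := congrArg (Polynomial.map f) h2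
  constructor
  · simpa [F1h] using h1'
  · simpa [F2h] using h2'

lemma Ids.of_map {n : ℕ} {S : Type*} [CommRing S] (f : R →+* S) (hf : Function.Injective f)
    (h : Ids (W.map f) n) : Ids W n := by
  obtain ⟨h1, h2⟩ := h
  simp only [map_phn, map_psn] at h1 h2
  constructor
  · apply Polynomial.map_injective f hf
    simpa [F1h] using h1
  · apply Polynomial.map_injective f hf
    simpa [F2h] using h2

end Poly

section Field

variable {F : Type u} [Field F] [CharZero F] (W : WeierstrassCurve F)

/-- a field with a transcendental element -/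
abbrev LL (F : Type u) [Field F] : Type u := AlgebraicClosure (RatFunc F)

/-- the generic evaluation -/
noncomputable def iot (F : Type u) [Field F] : F[X] →+* LL F :=
  (algebraMap (RatFunc F) (LL F)).comp (algebraMap F[X] (RatFunc F))

lemma iot_injective : Function.Injective (iot F) := by
  rw [iot, RingHom.coe_comp]
  exact (algebraMap (RatFunc F) (LL F)).injective.comp (IsFractionRing.injective F[X] (RatFunc F))

instance : CharZero (LL F) := by
  have : Function.Injective ((iot F).comp C) := (iot_injective (F := F)).comp C_injective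
  exact charZero_of_injective_ringHom this

/-- the base change of the curve to `LL F` -/
noncomputable abbrev WL : WeierstrassCurve.Affine (LL F) := W.map ((iot F).comp C)

open Classical in
lemma exists_generic : ∃ (y : LL F) (h : (WL W).Nonsingular (iot F X) y),
    (y - (WL W).negY (iot F X) y) ^ 2 = iot F W.Ψ₂Sq := by
  obtain ⟨y, hy⟩ := exists_y (WL W) (iot F X)
  have h2 := psi_eq hy
  have h3 : (y - (WL W).negY (iot F X) y) ^ 2 = iot F W.Ψ₂Sq := by
    rw [h2, WeierstrassCurve.Ψ₂Sq]
    simp only [WL, WeierstrassCurve.map_b₂, WeierstrassCurve.map_b₄, WeierstrassCurve.map_b₆,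
      RingHom.comp_apply, map_add, map_mul, map_pow, map_ofNat]
  refine ⟨y, ?_, h3⟩
  rw [WeierstrassCurve.Affine.nonsingular_iff']
  refine ⟨hy, Or.inr ?_⟩
  intro h0
  have h4 : y - (WL W).negY (iot F X) y = 0 := by
    rw [WeierstrassCurve.Affine.negY, ← h0]; ring
  rw [h4, zero_pow two_ne_zero] at h3
  have h5 : W.Ψ₂Sq = 0 := by
    apply iot_injective (F := F)
    rw [← h3, map_zero]
  exact W.Ψ₂Sq_ne_zero (by norm_num) h5

open Classical in
theorem generic_mul (n : ℕ) (hn : 1 ≤ n) {y : LL F} (h : (WL W).Nonsingular (iot F X) y)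
    (hη : (y - (WL W).negY (iot F X) y) ^ 2 = iot F W.Ψ₂Sq) :
    n • (WeierstrassCurve.Affine.Point.some _ _ h) ≠ 0 ∧
    (KummerLine.ofCurve (WL W)).N (n • (WeierstrassCurve.Affine.Point.some _ _ h)) *
      iot F (psn W n) = iot F (phn W n) := by
  set η := y - (WL W).negY (iot F X) y with hηdef
  set P := WeierstrassCurve.Affine.Point.some _ _ h with hP
  have hNP : (KummerLine.ofCurve (WL W)).N P = iot F X := xN_some h
  have hη0 : η ≠ 0 := by
    intro h0
    rw [h0, zero_pow two_ne_zero] at hη
    have h5 : W.Ψ₂Sq = 0 := by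
      apply iot_injective (F := F)
      rw [← hη, map_zero]
    exact W.Ψ₂Sq_ne_zero (by norm_num) h5
  set s : ℕ → LL F := fun n => iot F (W.preΨ' n) * (if Even n then η else 1) with hs
  have hIs : IsPsi (KummerLine.ofCurve (WL W)) P s := by
    refine ⟨?_, ?_, ?_, ?_, ?_, ?_, ?_, ?_, ?_⟩
    · exact WeierstrassCurve.Affine.Point.some_ne_zero h
    · intro n
      simp only [hs]
      refine mul_ne_zero ?_ ?_
      · rw [Ne, map_eq_zero_iff _ (iot_injective (F := F))]
        exact W.preΨ'_ne_zero (by exact_mod_cast Nat.succ_ne_zero n)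
      · split_ifs
        · exact hη0
        · exact one_ne_zero
    · simp [hs]
    · simp [hs]
    · simp only [hs, WeierstrassCurve.preΨ'_two, map_one, one_mul, even_two, if_true]
      rw [hηdef, psi_eq h.1, hNP]
      rfl
    · simp only [hs, WeierstrassCurve.preΨ'_three]
      rw [if_neg (by decide), mul_one, WeierstrassCurve.Ψ₃, hNP]
      simp only [KummerLine.ofCurve, WL, WeierstrassCurve.map_b₂, WeierstrassCurve.map_b₄,
        WeierstrassCurve.map_b₆, WeierstrassCurve.map_b₈,
        RingHom.comp_apply, map_add, map_mul, map_pow, map_ofNat]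
    · simp only [hs, WeierstrassCurve.preΨ'_four, WeierstrassCurve.preΨ'_two]
      rw [if_pos (by decide), if_pos (by decide), map_one, one_mul, WeierstrassCurve.preΨ₄, hNP]
      simp only [KummerLine.ofCurve, WL, WeierstrassCurve.map_b₂, WeierstrassCurve.map_b₄,
        WeierstrassCurve.map_b₆, WeierstrassCurve.map_b₈,
        RingHom.comp_apply, map_add, map_mul, map_pow, map_ofNat, map_sub]
    · intro m
      simp only [hs]
      rw [show 2 * m + 5 = 2 * (m + 2) + 1 by ring, W.preΨ'_odd m]
      rcases Nat.even_or_odd m with hm | hm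
      · have hm0 := hm
        rw [Nat.even_iff] at hm0
        have e1 : ¬ Even (2 * (m + 2) + 1) := by rw [Nat.even_iff]; omega
        have e2 : Even (m + 4) := by rw [Nat.even_iff]; omega
        have e3 : Even (m + 2) := by rw [Nat.even_iff]; omega
        have e4 : ¬ Even (m + 1) := by rw [Nat.even_iff]; omega
        have e5 : ¬ Even (m + 3) := by rw [Nat.even_iff]; omega
        simp only [if_neg e1, if_pos e2, if_pos e3, if_neg e4, if_neg e5, if_pos hm]
        simp only [map_sub, map_mul, map_pow, ← hη, map_one]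
        ring
      · have hm' : ¬ Even m := Nat.not_even_iff_odd.mpr hm
        rw [Nat.odd_iff] at hm
        have e1 : ¬ Even (2 * (m + 2) + 1) := by rw [Nat.even_iff]; omega
        have e2 : ¬ Even (m + 4) := by rw [Nat.even_iff]; omega
        have e3 : ¬ Even (m + 2) := by rw [Nat.even_iff]; omega
        have e4 : Even (m + 1) := by rw [Nat.even_iff]; omega
        have e5 : Even (m + 3) := by rw [Nat.even_iff]; omega
        simp only [if_neg e1, if_neg e2, if_neg e3, if_pos e4, if_pos e5, if_neg hm']
        simp only [map_sub, map_mul, map_pow, ← hη, map_one]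
        ring
    · intro m
      simp only [hs]
      rw [show 2 * m + 6 = 2 * (m + 3) by ring, W.preΨ'_even m]
      rcases Nat.even_or_odd m with hm | hm
      · rw [Nat.even_iff] at hm
        have e0 : Even (2 * (m + 3)) := by rw [Nat.even_iff]; omega
        have e1 : ¬ Even (m + 5) := by rw [Nat.even_iff]; omega
        have e2 : Even (m + 4) := by rw [Nat.even_iff]; omega
        have e3 : Even (m + 2) := by rw [Nat.even_iff]; omega
        have e4 : ¬ Even (m + 1) := by rw [Nat.even_iff]; omega
        have e5 : ¬ Even (m + 3) := by rw [Nat.even_iff]; omega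
        simp only [if_pos e0, if_neg e1, if_pos e2, if_pos e3, if_neg e4, if_neg e5, if_pos even_two,
          WeierstrassCurve.preΨ'_two]
        simp only [map_sub, map_mul, map_pow, map_one]
        ring
      · rw [Nat.odd_iff] at hm
        have e0 : Even (2 * (m + 3)) := by rw [Nat.even_iff]; omega
        have e1 : Even (m + 5) := by rw [Nat.even_iff]; omega
        have e2 : ¬ Even (m + 4) := by rw [Nat.even_iff]; omega
        have e3 : ¬ Even (m + 2) := by rw [Nat.even_iff]; omega
        have e4 : Even (m + 1) := by rw [Nat.even_iff]; omega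
        have e5 : Even (m + 3) := by rw [Nat.even_iff]; omega
        simp only [if_pos e0, if_pos e1, if_neg e2, if_neg e3, if_pos e4, if_pos e5, if_pos even_two,
          WeierstrassCurve.preΨ'_two]
        simp only [map_sub, map_mul, map_pow, map_one]
        ring
  obtain ⟨h1, h2⟩ := Cl_all hIs hn
  refine ⟨h1, ?_⟩
  have hsn : s n ≠ 0 := hIs.ne' (by omega)
  have hpsn : ∀ n, iot F (psn W n) = s n ^ 2 := by
    intro n
    rw [psn_eq, map_mul, map_pow]
    simp only [hs]
    rw [mul_pow]
    congr 1
    split_ifs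
    · rw [hη]
    · simp
  obtain ⟨k, rfl⟩ := Nat.exists_eq_add_of_le' hn
  rw [phn_succ, map_sub, map_mul, hpsn]
  have h3 : iot F (W.preΨ' (k + 2) * W.preΨ' k * (if Even k then W.Ψ₂Sq else 1)) =
      s (k + 2) * s k := by
    simp only [hs, map_mul]
    have : Even (k + 2) ↔ Even k := by simp [Nat.even_add]
    simp only [this]
    split_ifs
    · rw [← hη]; ring
    · simp
  rw [h3, ← hNP]
  rw [sub_eq_iff_eq_add] at h2
  rw [h2, show k + 1 - 1 = k from rfl, show k + 1 + 1 = k + 2 from rfl]
  field_simp
  ring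

end Field

end Fermat.Agent.DivPoly
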