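import Fermat.Agent.ECRed.KummerLine

set_option autoImplicit false
set_option linter.unusedSectionVars false

/-! # Symmetric triquadratic relation on the Kummer line -/

namespace Fermat.Agent.DivPoly

open Fermat.Agent.ECRed

variable {G : Type*} [AddCommGroup G] {K : Type*} [Field K] (κ : KummerLine G K)

/-- the symmetric form `H(x,y,z)` -/
def H (x y z : K) : K := (x * y + x * z + y * z) ^ 2 - 4 * (x + y + z) * (x * y * z) -
  κ.b₂ * (x * y * z) - κ.b₄ * (x * y + x * z + y * z) - κ.b₆ * (x + y + z) - κ.b₈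

lemma H_ne {A B : G} (hA : A ≠ 0) (hB : B ≠ 0) (h1 : A ≠ B) (h2 : A ≠ -B) (X : K) :
    (κ.N A - κ.N B) ^ 2 * ((κ.N (A + B) - X) * (κ.N (A - B) - X)) = H κ (κ.N A) (κ.N B) X := by
  obtain ⟨-, e1, e2⟩ := κ.add_sub_ne hA hB h1 h2
  rw [H]
  linear_combination e2 - X * e1

lemma H_dup {A : G} (hA : A ≠ 0) (h2 : A + A ≠ 0) (X : K) :
    κ.psi (κ.N A) * (κ.N (A + A) - X) = H κ (κ.N A) (κ.N A) X := by
  obtain ⟨-, e⟩ := κ.dup hA h2
  rw [mul_sub, e, H, KummerLine.psi, KummerLine.phi]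
  ring

lemma H_disc {A B : G} (hA : A ≠ 0) (hB : B ≠ 0) (h1 : A ≠ B) (h2 : A ≠ -B) :
    (κ.N (A + B) - κ.N (A - B)) ^ 2 * (κ.N A - κ.N B) ^ 4 =
      κ.psi (κ.N A) * κ.psi (κ.N B) := by
  obtain ⟨-, e1, e2⟩ := κ.add_sub_ne hA hB h1 h2
  set x := κ.N A
  set y := κ.N B
  set F1 := 2 * (x + y) * (x * y) + κ.b₂ * (x * y) + κ.b₄ * (x + y) + κ.b₆ with hF1
  set F2 := (x * y) ^ 2 - κ.b₄ * (x * y) - κ.b₆ * (x + y) - κ.b₈ with hF2
  have h3 : (κ.N (A + B) - κ.N (A - B)) ^ 2 * (x - y) ^ 4 = F1 ^ 2 - 4 * F2 * (x - y) ^ 2 := by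
    rw [← e1, ← e2]; ring
  rw [h3, hF1, hF2, KummerLine.psi, KummerLine.psi]
  have := κ.rel_b
  linear_combination (x - y) ^ 2 * this

lemma psi_eq_zero {A : G} (hA : A ≠ 0) (h : A + A = 0) : κ.psi (κ.N A) = 0 := by
  obtain ⟨l, hl, h2, h1, h0⟩ := κ.addSub A A
  rw [κ.D_ne _ hA, h, sub_self, κ.N_zero, κ.D_zero] at *
  rw [KummerLine.psi]
  linear_combination -h1

lemma N_ne_of {A B : G} (hA : A ≠ 0) (hB : B ≠ 0) (h1 : A ≠ B) (h2 : A ≠ -B) :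
    κ.N A ≠ κ.N B := (κ.add_sub_ne hA hB h1 h2).1

end Fermat.Agent.DivPoly
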