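import Fermat.Agent.DivPoly.Generic

set_option autoImplicit false
set_option linter.unusedSectionVars false

/-! # Universal identities between the division polynomials (all commutative rings) -/

namespace Fermat.Agent.DivPoly

open Fermat.Agent.ECRed Polynomial

universe u

lemma ids_zero {R : Type*} [CommRing R] (W : WeierstrassCurve R) : Ids W 0 := by
  constructor
  · simp only [zero_add, psn_zero, phn_zero, psn_two, phn_one, psn_one, F1h, WeierstrassCurve.Ψ₂Sq]
    simp only [map_mul, map_ofNat]
    ring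
  · simp only [zero_add, phn_zero, phn_two, phn_one, psn_one, F2h]
    simp only [map_mul, map_ofNat]
    ring

open Classical in
theorem ids_field {F : Type u} [Field F] [CharZero F] (W : WeierstrassCurve F) (n : ℕ) :
    Ids W n := by
  rcases Nat.eq_zero_or_pos n with rfl | hn
  · exact ids_zero W
  obtain ⟨y, h, hη⟩ := exists_generic W
  set κ := KummerLine.ofCurve (WL W) with hκ
  set P := WeierstrassCurve.Affine.Point.some _ _ h with hP
  have hP0 : P ≠ 0 := WeierstrassCurve.Affine.Point.some_ne_zero h
  have hNP : κ.N P = iot F X := xN_some h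
  obtain ⟨g0, f0⟩ := generic_mul W n hn h hη
  obtain ⟨g1, f1⟩ := generic_mul W (n + 1) (by omega) h hη
  obtain ⟨g2, f2⟩ := generic_mul W (n + 2) (by omega) h hη
  have k1 : (n + 1) • P ≠ P := by
    intro h0
    rw [succ_nsmul] at h0
    exact g0 (by simpa using h0)
  have k2 : (n + 1) • P ≠ -P := by
    intro h0
    apply g2
    rw [succ_nsmul _ (n + 1), h0]; exact neg_add_cancel P
  obtain ⟨-, e1, e2⟩ := κ.add_sub_ne g1 hP0 k1 k2
  have a1 : (n + 1) • P + P = (n + 2) • P := by rw [← succ_nsmul]
  have a2 : (n + 1) • P - P = n • P := by rw [succ_nsmul]; abel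
  rw [a1, a2, hNP] at e1 e2
  have hid := congrArg (iot F) (id0 W n)
  rw [map_mul, map_pow, map_sub, map_mul, ← f1] at hid
  have hb2 : κ.b₂ = iot F (C W.b₂) := by
    simp only [hκ, KummerLine.ofCurve, WL, WeierstrassCurve.map_b₂, RingHom.comp_apply]
  have hb4 : κ.b₄ = iot F (C W.b₄) := by
    simp only [hκ, KummerLine.ofCurve, WL, WeierstrassCurve.map_b₄, RingHom.comp_apply]
  have hb6 : κ.b₆ = iot F (C W.b₆) := by
    simp only [hκ, KummerLine.ofCurve, WL, WeierstrassCurve.map_b₆, RingHom.comp_apply]
  have hb8 : κ.b₈ = iot F (C W.b₈) := by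
    simp only [hκ, KummerLine.ofCurve, WL, WeierstrassCurve.map_b₈, RingHom.comp_apply]
  constructor
  · apply iot_injective (F := F)
    rw [F1h]
    simp only [map_add, map_mul, map_pow, map_ofNat, map_one]
    rw [← f0, ← f1, ← f2, ← hb2, ← hb4, ← hb6]
    generalize κ.N (n • P) = N0 at *
    generalize κ.N ((n + 1) • P) = N1 at *
    generalize κ.N ((n + 2) • P) = N2 at *
    generalize iot F (psn W n) = p0 at *
    generalize iot F (psn W (n + 1)) = p1 at *
    generalize iot F (psn W (n + 2)) = p2 at *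
    linear_combination (N2 + N0) * hid + p1 ^ 2 * e1
  · apply iot_injective (F := F)
    rw [F2h]
    simp only [map_sub, map_add, map_mul, map_pow, map_one]
    rw [← f0, ← f1, ← f2, ← hb4, ← hb6, ← hb8]
    generalize κ.N (n • P) = N0 at *
    generalize κ.N ((n + 1) • P) = N1 at *
    generalize κ.N ((n + 2) • P) = N2 at *
    generalize iot F (psn W n) = p0 at *
    generalize iot F (psn W (n + 1)) = p1 at *
    generalize iot F (psn W (n + 2)) = p2 at *
    linear_combination (N2 * N0) * hid + p1 ^ 2 * e2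

/-- the universal curve -/
noncomputable def Wuniv : WeierstrassCurve (MvPolynomial (Fin 5) ℤ) where
  a₁ := MvPolynomial.X 0
  a₂ := MvPolynomial.X 1
  a₃ := MvPolynomial.X 2
  a₄ := MvPolynomial.X 3
  a₆ := MvPolynomial.X 4

lemma ids_univ (n : ℕ) : Ids Wuniv n := by
  have : CharZero (FractionRing (MvPolynomial (Fin 5) ℤ)) :=
    charZero_of_injective_ringHom
      (IsFractionRing.injective (MvPolynomial (Fin 5) ℤ) (FractionRing (MvPolynomial (Fin 5) ℤ)))
  exact Ids.of_map _ (algebraMap (MvPolynomial (Fin 5) ℤ) (FractionRing (MvPolynomial (Fin 5) ℤ)))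
    (IsFractionRing.injective _ _) (ids_field _ n)

/-- **The universal identities.** -/
theorem ids {R : Type*} [CommRing R] (W : WeierstrassCurve R) (n : ℕ) : Ids W n := by
  set f : MvPolynomial (Fin 5) ℤ →+* R :=
    MvPolynomial.eval₂Hom (Int.castRingHom R) ![W.a₁, W.a₂, W.a₃, W.a₄, W.a₆] with hf
  have hW : Wuniv.map f = W := by
    ext <;> simp [Wuniv, WeierstrassCurve.map, hf]
  rw [← hW]
  exact (ids_univ n).map _ f

end Fermat.Agent.DivPoly
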