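import Fermat.Agent.DivPoly.Ids

set_option autoImplicit false
set_option linter.unusedSectionVars false

/-! # Division polynomials compute multiplication by `n`

Main results, for an arbitrary Weierstrass curve `W` over an arbitrary field `K` and a
(nonsingular) point `P ≠ 0` with `x`-coordinate `x = xN P`:
* `mul_rep` : `(Φₙ(x) : ΨSqₙ(x))` is the projective `x`-coordinate of `n • P`;
* `nsmul_eq_zero_iff` : `n • P = 0 ↔ ΨSqₙ(x) = 0`;
* `xN_nsmul` : `x(nP) * ΨSqₙ(x) = Φₙ(x)`.
-/

namespace Fermat.Agent.DivPoly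

open Fermat.Agent.ECRed Polynomial

section General

variable {K : Type*} [Field K] [DecidableEq K] {W : WeierstrassCurve.Affine K}

lemma xD_of_ne {P : W.Point} (hP : P ≠ 0) : xD P = 1 := by
  rcases P with _ | ⟨x, y, h⟩
  · exact absurd rfl hP
  · exact xD_some h

lemma xN_xD_ne (P : W.Point) : xN P ≠ 0 ∨ xD P ≠ 0 := by
  by_cases hP : P = 0
  · left; rw [hP, xN_zero]; exact one_ne_zero
  · right; rw [xD_of_ne hP]; exact one_ne_zero

theorem mul_rep {P : W.Point} (hP : P ≠ 0) (n : ℕ) :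
    ∃ μ : K, μ ≠ 0 ∧ (phn W n).eval (xN P) = μ * xN (n • P) ∧
      (psn W n).eval (xN P) = μ * xD (n • P) := by
  suffices h : (∃ μ : K, μ ≠ 0 ∧ (phn W n).eval (xN P) = μ * xN (n • P) ∧
      (psn W n).eval (xN P) = μ * xD (n • P)) ∧ (∃ μ : K, μ ≠ 0 ∧
      (phn W (n + 1)).eval (xN P) = μ * xN ((n + 1) • P) ∧
      (psn W (n + 1)).eval (xN P) = μ * xD ((n + 1) • P)) from h.1
  induction n with
  | zero =>
    refine ⟨⟨1, one_ne_zero, ?_, ?_⟩, ⟨1, one_ne_zero, ?_, ?_⟩⟩
    · rw [phn_zero, zero_smul, xN_zero]; simp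
    · rw [psn_zero, zero_smul, xD_zero]; simp
    · rw [zero_add, phn_one, one_smul]; simp
    · rw [zero_add, psn_one, one_smul, xD_of_ne hP]; simp
  | succ n ih =>
    refine ⟨ih.2, ?_⟩
    obtain ⟨⟨μ, hμ, a1, a2⟩, ⟨ν, hν, b1, b2⟩⟩ := ih
    obtain ⟨l, hl, e2, e1, e0⟩ := addSubRel ((n + 1) • P) P
    have c1 : (n + 1) • P + P = (n + 1 + 1) • P := by rw [← succ_nsmul]
    have c2 : (n + 1) • P - P = n • P := by rw [succ_nsmul]; abel
    rw [c1, c2, xD_of_ne hP] at e2 e1 e0
    obtain ⟨i1, i2⟩ := ids W n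
    have i0 := id0 W n
    have j1 := congrArg (Polynomial.eval (xN P)) i1
    have j2 := congrArg (Polynomial.eval (xN P)) i2
    have j0 := congrArg (Polynomial.eval (xN P)) i0
    simp only [F1h, F2h, eval_add, eval_sub, eval_mul, eval_pow, eval_C, eval_X, eval_one,
      eval_ofNat] at j1 j2 j0
    rw [a1, a2, b1, b2] at j1
    rw [a1, b1, b2] at j2
    rw [a2, b1, b2] at j0
    rw [show n + 2 = n + 1 + 1 from rfl] at j1 j2 j0
    set A := eval (xN P) (phn W (n + 1 + 1))
    set B := eval (xN P) (psn W (n + 1 + 1))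
    refine ⟨ν ^ 2 * l / μ, div_ne_zero (mul_ne_zero (pow_ne_zero _ hν) hl) hμ, ?_⟩
    have k2 : (μ * A - ν ^ 2 * l * xN ((n + 1 + 1) • P)) * xN (n • P) = 0 := by
      linear_combination j2 - ν ^ 2 * e2
    have k1 : (μ * A - ν ^ 2 * l * xN ((n + 1 + 1) • P)) * xD (n • P) +
        (μ * B - ν ^ 2 * l * xD ((n + 1 + 1) • P)) * xN (n • P) = 0 := by
      linear_combination j1 - ν ^ 2 * e1
    have k0 : (μ * B - ν ^ 2 * l * xD ((n + 1 + 1) • P)) * xD (n • P) = 0 := by
      linear_combination j0 - ν ^ 2 * e0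
    have key : μ * A - ν ^ 2 * l * xN ((n + 1 + 1) • P) = 0 ∧
        μ * B - ν ^ 2 * l * xD ((n + 1 + 1) • P) = 0 := by
      rcases xN_xD_ne (n • P) with h | h
      · have u := (mul_eq_zero.mp k2).resolve_right h
        refine ⟨u, ?_⟩
        rw [u, zero_mul, zero_add] at k1
        exact (mul_eq_zero.mp k1).resolve_right h
      · have u := (mul_eq_zero.mp k0).resolve_right h
        refine ⟨?_, u⟩
        rw [u, zero_mul, add_zero] at k1
        exact (mul_eq_zero.mp k1).resolve_right h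
    constructor
    · field_simp
      linear_combination key.1
    · field_simp
      linear_combination key.2

/-- `n • P = 0` iff the division polynomial vanishes. -/
theorem nsmul_eq_zero_iff {P : W.Point} (hP : P ≠ 0) (n : ℕ) :
    n • P = 0 ↔ (psn W n).eval (xN P) = 0 := by
  obtain ⟨μ, hμ, h1, h2⟩ := mul_rep hP n
  rw [h2]
  constructor
  · intro h; rw [h, xD_zero, mul_zero]
  · intro h
    by_contra h0
    rw [xD_of_ne h0, mul_one] at h
    exact hμ h

/-- the `x`-coordinate of `n • P` -/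
theorem xN_nsmul {P : W.Point} {n : ℕ} (hP : P ≠ 0) (hn : n • P ≠ 0) :
    xN (n • P) * (psn W n).eval (xN P) = (phn W n).eval (xN P) := by
  obtain ⟨μ, hμ, h1, h2⟩ := mul_rep hP n
  rw [h2, h1, xD_of_ne hn]
  ring

/-- for odd `n`: `n • P = 0` iff `preΨ'ₙ` vanishes. -/
theorem nsmul_eq_zero_iff_odd {P : W.Point} (hP : P ≠ 0) {n : ℕ} (hn : Odd n) :
    n • P = 0 ↔ (W.preΨ' n).eval (xN P) = 0 := by
  rw [nsmul_eq_zero_iff hP, psn_eq, if_neg (Nat.not_even_iff_odd.mpr hn), mul_one, eval_pow]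
  simp

/-- points with the same `x`-coordinate -/
lemma eq_or_neg_of_xN {P Q : W.Point} (hP : P ≠ 0) (hQ : Q ≠ 0) (h : xN P = xN Q) :
    P = Q ∨ P = -Q := by
  by_contra hcon
  push Not at hcon
  exact (KummerLine.ofCurve W).add_sub_ne hP hQ hcon.1 hcon.2 |>.1 h

/-- `Φₙ` and `ΨSqₙ` have no common root at an `x`-coordinate of a nonsingular point. -/
theorem not_common_root {P : W.Point} (hP : P ≠ 0) (n : ℕ) :
    ¬ ((phn W n).eval (xN P) = 0 ∧ (psn W n).eval (xN P) = 0) := by
  rintro ⟨h1, h2⟩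
  obtain ⟨μ, hμ, e1, e2⟩ := mul_rep hP n
  rw [h1] at e1
  rw [h2] at e2
  rcases xN_xD_ne (n • P) with h | h
  · exact (mul_ne_zero hμ h) e1.symm
  · exact (mul_ne_zero hμ h) e2.symm

end General

section AlgClosed

variable {K : Type*} [Field K] [DecidableEq K] [IsAlgClosed K] {W : WeierstrassCurve.Affine K}

/-- over an algebraically closed field, every `x` is an `x`-coordinate -/
lemma exists_point (hΔ : W.Δ ≠ 0) (x : K) : ∃ P : W.Point, P ≠ 0 ∧ xN P = x := by
  obtain ⟨y, hy⟩ := exists_y W x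
  have h := (W.equation_iff_nonsingular_of_Δ_ne_zero hΔ).mp hy
  exact ⟨.some x y h, WeierstrassCurve.Affine.Point.some_ne_zero h, xN_some h⟩

/-- the Wronskian-type polynomial -/
lemma wronskian_ne_zero {n : ℕ} (hn : (n : K) ≠ 0) :
    derivative (phn W n) * psn W n - phn W n * derivative (psn W n) ≠ 0 := by
  have hn0 : n ≠ 0 := by rintro rfl; simp at hn
  have hd1 : (phn W n).natDegree = n ^ 2 := by
    rw [phn, WeierstrassCurve.natDegree_Φ]; simp
  have hc1 : (phn W n).coeff (n ^ 2) = 1 := by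
    have := W.coeff_Φ n; simpa [phn] using this
  have hd2 : (psn W n).natDegree = n ^ 2 - 1 := by
    rw [psn, WeierstrassCurve.natDegree_ΨSq _ (by exact_mod_cast hn)]; simp
  have hc2 : (psn W n).coeff (n ^ 2 - 1) = (n : K) ^ 2 := by
    have := W.coeff_ΨSq n; simpa [psn] using this
  obtain ⟨k, hk⟩ : ∃ k, n ^ 2 = k + 1 := ⟨n ^ 2 - 1, by have := pow_pos (Nat.pos_of_ne_zero hn0) 2; omega⟩
  rw [hk] at hd1 hc1 hd2 hc2
  simp only [Nat.add_sub_cancel] at hd2 hc2
  intro h0
  have h1 : (derivative (phn W n) * psn W n).coeff (k + k) = (k + 1 : K) * (n : K) ^ 2 := by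
    rw [coeff_mul_add_eq_of_natDegree_le (natDegree_derivative_le _ |>.trans (by rw [hd1]; simp))
      hd2.le, coeff_derivative, hc1, hc2]
    ring
  rcases Nat.eq_zero_or_pos k with rfl | hkpos
  · have h2 : (phn W n * derivative (psn W n)).coeff (0 + 0) = 0 := by
      have : derivative (psn W n) = 0 := by
        apply derivative_of_natDegree_zero; exact hd2
      rw [this]; simp
    have := congrArg (fun p => coeff p (0 + 0)) h0
    simp only [coeff_sub, coeff_zero] at this
    rw [h1, h2] at this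
    simp at this
    exact hn (by simpa using this)
  · obtain ⟨j, rfl⟩ : ∃ j, k = j + 1 := ⟨k - 1, by omega⟩
    have h2 : (phn W n * derivative (psn W n)).coeff (j + 1 + (j + 1)) = (j + 1 : K) * (n : K) ^ 2 := by
      rw [show j + 1 + (j + 1) = (j + 1 + 1) + j by ring]
      rw [coeff_mul_add_eq_of_natDegree_le hd1.le (natDegree_derivative_le _ |>.trans (by rw [hd2]; simp)),
        coeff_derivative, hc1, hc2]
      ring
    have := congrArg (fun p => coeff p (j + 1 + (j + 1))) h0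
    simp only [coeff_sub, coeff_zero] at this
    rw [h1, h2] at this
    have h3 : (n : K) ^ 2 = 0 := by push_cast at this; linear_combination this
    exact hn (by simpa using h3)

end AlgClosed

end Fermat.Agent.DivPoly
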