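import Fermat.Agent.DivPoly.Hid

set_option autoImplicit false
set_option linter.unusedSectionVars false

/-! # Elliptic divisibility sequences and multiples of a point -/

namespace Fermat.Agent.DivPoly

open Fermat.Agent.ECRed

variable {G : Type*} [AddCommGroup G] {K : Type*} [Field K] {κ : KummerLine G K}

variable (κ) in
/-- `s` is the sequence of values of the division polynomials at the point `P`, with no zeros. -/
structure IsPsi (P : G) (s : ℕ → K) : Prop where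
  P0 : P ≠ 0
  ne : ∀ n, s (n + 1) ≠ 0
  zero : s 0 = 0
  one : s 1 = 1
  two : s 2 ^ 2 = κ.psi (κ.N P)
  three : s 3 = 3 * κ.N P ^ 4 + κ.b₂ * κ.N P ^ 3 + 3 * κ.b₄ * κ.N P ^ 2 + 3 * κ.b₆ * κ.N P + κ.b₈
  four : s 4 = (2 * κ.N P ^ 6 + κ.b₂ * κ.N P ^ 5 + 5 * κ.b₄ * κ.N P ^ 4 +
    10 * κ.b₆ * κ.N P ^ 3 + 10 * κ.b₈ * κ.N P ^ 2 + (κ.b₂ * κ.b₈ - κ.b₄ * κ.b₆) * κ.N P +
    (κ.b₄ * κ.b₈ - κ.b₆ ^ 2)) * s 2
  odd : ∀ m, s (2 * m + 5) = s (m + 4) * s (m + 2) ^ 3 - s (m + 1) * s (m + 3) ^ 3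
  even : ∀ m, s (2 * m + 6) * s 2 =
    s (m + 2) ^ 2 * s (m + 3) * s (m + 5) - s (m + 1) * s (m + 3) * s (m + 4) ^ 2

variable {P : G} {s : ℕ → K}

/-- the claim for `n` -/
def Cl (κ : KummerLine G K) (P : G) (s : ℕ → K) (n : ℕ) : Prop :=
  n • P ≠ 0 ∧ κ.N (n • P) - κ.N P = -(s (n + 1) * s (n - 1) / s n ^ 2)

lemma IsPsi.ne' (h : IsPsi κ P s) {n : ℕ} (hn : n ≠ 0) : s n ≠ 0 := by
  obtain ⟨m, rfl⟩ := Nat.exists_eq_succ_of_ne_zero hn
  exact h.ne m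

lemma IsPsi.odd' (h : IsPsi κ P s) {m : ℕ} (hm : 1 ≤ m) :
    s (2 * m + 1) = s (m + 2) * s m ^ 3 - s (m - 1) * s (m + 1) ^ 3 := by
  obtain ⟨m, rfl⟩ := Nat.exists_eq_add_of_le' hm
  rcases m with _ | m
  · simp [h.one, h.zero]
  · exact h.odd m

lemma IsPsi.even' (h : IsPsi κ P s) {m : ℕ} (hm : 2 ≤ m) :
    s (2 * m) * s 2 = s (m - 1) ^ 2 * s m * s (m + 2) - s (m - 2) * s m * s (m + 1) ^ 2 := by
  obtain ⟨m, rfl⟩ := Nat.exists_eq_add_of_le' hm
  rcases m with _ | m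
  · simp [h.one, h.zero]; ring
  · exact h.even m

/-- the case `x_{m+1} - x_m`. -/
lemma diff_one (h : IsPsi κ P s) {m : ℕ} (hm : 1 ≤ m) (h1 : Cl κ P s m) (h2 : Cl κ P s (m + 1)) :
    κ.N ((m + 1) • P) - κ.N (m • P) = -(s (2 * m + 1) / (s m ^ 2 * s (m + 1) ^ 2)) := by
  have e1 := h1.2
  have e2 := h2.2
  have n1 := h.ne' (show m ≠ 0 by omega)
  have n2 := h.ne' (show m + 1 ≠ 0 by omega)
  rw [h.odd' hm]
  have : κ.N ((m + 1) • P) - κ.N (m • P) = (κ.N ((m + 1) • P) - κ.N P) - (κ.N (m • P) - κ.N P) := by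
    ring
  rw [this, e1, e2]
  rw [show m + 1 + 1 = m + 2 from rfl, show m + 1 - 1 = m from rfl]
  field_simp
  ring

lemma diff_two (h : IsPsi κ P s) {m : ℕ} (hm : 1 ≤ m) (h1 : Cl κ P s m) (h2 : Cl κ P s (m + 2)) :
    κ.N ((m + 2) • P) - κ.N (m • P) =
      -(s (2 * (m + 1)) * s 2 / (s m ^ 2 * s (m + 2) ^ 2)) := by
  have e1 := h1.2
  have e2 := h2.2
  have n1 := h.ne' (show m ≠ 0 by omega)
  have n2 := h.ne' (show m + 2 ≠ 0 by omega)
  rw [h.even' (show 2 ≤ m + 1 by omega)]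
  have : κ.N ((m + 2) • P) - κ.N (m • P) = (κ.N ((m + 2) • P) - κ.N P) - (κ.N (m • P) - κ.N P) := by
    ring
  rw [this, e1, e2]
  rw [show m + 2 + 1 = m + 1 + 2 from rfl, show m + 2 - 1 = m + 1 from rfl,
    show m + 1 + 1 = m + 2 from rfl, show m + 1 - 1 = m from rfl, show m + 1 - 2 = m - 1 from rfl]
  field_simp
  ring

/-- if `x_m ≠ x_1` then we can use the relations with `A = mP, B = P`. -/
lemma ne_one (h : IsPsi κ P s) {m : ℕ} (hm : 2 ≤ m) (h1 : Cl κ P s m) :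
    κ.N (m • P) - κ.N P ≠ 0 := by
  rw [h1.2]
  have n1 := h.ne' (show m ≠ 0 by omega)
  have n2 := h.ne' (show m + 1 ≠ 0 by omega)
  have n3 := h.ne' (show m - 1 ≠ 0 by omega)
  exact neg_ne_zero.mpr (div_ne_zero (mul_ne_zero n2 n3) (pow_ne_zero _ n1))

lemma ne_pm {m k : ℕ} (h : κ.N (m • P) - κ.N (k • P) ≠ 0) :
    m • P ≠ k • P ∧ m • P ≠ -(k • P) := by
  refine ⟨?_, ?_⟩
  · intro h'; apply h; rw [h', sub_self]
  · intro h'; apply h; rw [h', κ.N_neg, sub_self]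

lemma succ_ne (h : IsPsi κ P s) {m : ℕ} (hm : 1 ≤ m) (h1 : Cl κ P s m) : (m + 1) • P ≠ 0 := by
  rcases hm.eq_or_lt with rfl | hm
  · intro h0
    have : P + P = 0 := by rw [← two_nsmul]; exact h0
    have h2 := psi_eq_zero κ h.P0 this
    rw [← h.two] at h2
    exact h.ne 1 (pow_eq_zero_iff (two_ne_zero) |>.mp h2)
  · intro h0
    have h2 := ne_one h hm h1
    have h3 : m • P = -P := by
      rw [succ_nsmul] at h0; exact eq_neg_of_add_eq_zero_left h0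
    apply h2
    rw [h3, κ.N_neg, sub_self]

/-- relation at `A = mP, B = P` -/
lemma rel_one (h : IsPsi κ P s) {m : ℕ} (hm : 2 ≤ m) (h1 : Cl κ P s m) (X : K) :
    (κ.N (m • P) - κ.N P) ^ 2 * ((κ.N ((m + 1) • P) - X) * (κ.N ((m - 1) • P) - X)) =
      H κ (κ.N (m • P)) (κ.N P) X := by
  have h2 : m • P ≠ 1 • P ∧ m • P ≠ -(1 • P) := by
    apply ne_pm (κ := κ)
    rw [one_smul]
    exact ne_one h hm h1
  rw [one_smul] at h2
  have := H_ne κ h1.1 h.P0 h2.1 h2.2 X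
  have e1 : (m - 1) • P = m • P - P := by
    rw [eq_sub_iff_add_eq, ← succ_nsmul]
    congr 1
    omega
  rw [← this, succ_nsmul, e1]

lemma H_symm (x y z : K) : H κ x y z = H κ y x z := by rw [H, H]; ring
lemma H_symm' (x y z : K) : H κ x y z = H κ x z y := by rw [H, H]; ring

/-- psi at `mP` -/
lemma psi_m (h : IsPsi κ P s) {m : ℕ} (hm : 1 ≤ m) (h1 : Cl κ P s m) (h2 : Cl κ P s (m - 1) ∨ m = 1)
    (h3 : Cl κ P s (m + 1)) : κ.psi (κ.N (m • P)) = s (2 * m) ^ 2 / s m ^ 8 := by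
  rcases hm.eq_or_lt with rfl | hm
  · rw [one_smul, h.one, ← h.two]; simp
  have h2 : Cl κ P s (m - 1) := by
    rcases h2 with h2 | h2
    · exact h2
    · omega
  have hm' : 2 ≤ m := hm
  have h2' : m • P ≠ 1 • P ∧ m • P ≠ -(1 • P) := by
    apply ne_pm (κ := κ)
    rw [one_smul]
    exact ne_one h hm' h1
  rw [one_smul] at h2'
  have e := H_disc κ h1.1 h.P0 h2'.1 h2'.2
  obtain ⟨k, rfl⟩ : ∃ k, m = k + 1 := ⟨m - 1, by omega⟩
  rw [show k + 1 - 1 = k from rfl] at h2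
  have e1 : (k + 1) • P + P = (k + 2) • P := by rw [← succ_nsmul]
  have e2 : (k + 1) • P - P = k • P := by rw [succ_nsmul]; abel
  have e3 := diff_two h (show 1 ≤ k by omega) h2 h3
  rw [e1, e2, e3, h1.2, ← h.two] at e
  have n1 := h.ne' (show k ≠ 0 by omega)
  have n2 := h.ne' (show k + 1 ≠ 0 by omega)
  have n3 := h.ne' (show k + 2 ≠ 0 by omega)
  have n4 := h.ne' (show 2 ≠ 0 by omega)
  rw [show k + 1 - 1 = k from rfl, show k + 1 + 1 = k + 2 from rfl] at e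
  rw [eq_div_iff (pow_ne_zero _ n2)]
  field_simp at e
  linear_combination -e

/-- The even step. -/
lemma step_even (h : IsPsi κ P s) {m : ℕ} (hm : 2 ≤ m) (h0 : Cl κ P s (m - 1)) (h1 : Cl κ P s m)
    (h2 : Cl κ P s (m + 1)) (h3 : Cl κ P s (2 * m - 1)) : Cl κ P s (2 * m) := by
  obtain ⟨k, rfl⟩ : ∃ k, m = k + 1 := ⟨m - 1, by omega⟩
  have n1 := h.ne' (show k ≠ 0 by omega)
  have n2 := h.ne' (show k + 1 ≠ 0 by omega)
  have n3 := h.ne' (show k + 2 ≠ 0 by omega)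
  have n4 := h.ne' (show 2 * (k + 1) ≠ 0 by omega)
  rw [show k + 1 - 1 = k from rfl] at h0
  have hne : (2 * (k + 1)) • P ≠ 0 := by
    have := succ_ne h (by omega) h3
    rwa [show 2 * (k + 1) - 1 + 1 = 2 * (k + 1) by omega] at this
  refine ⟨hne, ?_⟩
  have hdd : (k + 1) • P + (k + 1) • P = (2 * (k + 1)) • P := by
    rw [← add_nsmul, two_mul]
  have e1 := rel_one h hm h1 (κ.N ((k + 1) • P))
  have e2 := H_dup κ h1.1 (by rw [hdd]; exact hne) (κ.N P)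
  rw [H_symm', ← e1, hdd] at e2
  have hp := psi_m h (by omega) h1 (Or.inl h0) h2
  have d1 := diff_one h (by omega) h1 h2
  have d0 := diff_one h (by omega) h0 h1
  rw [show k + 1 - 1 = k from rfl] at e2
  have d0' : κ.N (k • P) - κ.N ((k + 1) • P) =
    (s (2 * k + 1) / (s k ^ 2 * s (k + 1) ^ 2)) := by
    linear_combination -d0
  rw [hp, h1.2, d1, d0'] at e2
  rw [show k + 1 - 1 = k from rfl, show k + 1 + 1 = k + 2 from rfl] at e2
  rw [show 2 * (k + 1) - 1 = 2 * k + 1 from rfl]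
  field_simp at e2 ⊢
  linear_combination e2

lemma base_two (h : IsPsi κ P s) : Cl κ P s 2 := by
  have h2 : P + P ≠ 0 := by
    intro h0
    have h2 := psi_eq_zero κ h.P0 h0
    rw [← h.two] at h2
    exact h.ne 1 (pow_eq_zero_iff (two_ne_zero) |>.mp h2)
  refine ⟨by rwa [two_nsmul], ?_⟩
  obtain ⟨e1, e2⟩ := κ.dup h.P0 h2
  rw [two_nsmul, h.three, h.one, h.two]
  have e3 : ∀ T : K, κ.psi (κ.N P) * (-(T * 1 / κ.psi (κ.N P))) = -T := by
    intro T; field_simp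
  rw [← mul_right_inj' e1, mul_sub, e2, e3]
  simp only [KummerLine.phi, KummerLine.psi]
  ring

lemma base_three (h : IsPsi κ P s) : Cl κ P s 3 := by
  have h2 := base_two h
  have h3 := succ_ne h (by norm_num) h2
  refine ⟨h3, ?_⟩
  obtain ⟨h20, e⟩ := h2
  have hne : κ.N (2 • P) - κ.N P ≠ 0 := ne_one h le_rfl (base_two h)
  have h2' : (2 • P : G) ≠ 1 • P ∧ (2 • P : G) ≠ -(1 • P) := by
    apply ne_pm (κ := κ)
    rw [one_smul]
    exact hne
  rw [one_smul] at h2'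
  obtain ⟨-, f1, -⟩ := κ.add_sub_ne h20 h.P0 h2'.1 h2'.2
  have a1 : 2 • P + P = 3 • P := by rw [← succ_nsmul]
  have a2 : 2 • P - P = P := by rw [two_nsmul]; abel
  rw [a1, a2] at f1
  have g0 : κ.psi (κ.N P) ≠ 0 := by rw [← h.two]; exact pow_ne_zero _ (h.ne 1)
  have hs2 := h.two
  have hs3 := h.three
  have hs4 := h.four
  have hs1 := h.one
  have n3 := h.ne 2
  have n2 := h.ne 1
  simp only [Nat.reduceAdd, Nat.reduceSub] at *
  set x := κ.N P with hx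
  have key : 2 * x ^ 6 + κ.b₂ * x ^ 5 + 5 * κ.b₄ * x ^ 4 + 10 * κ.b₆ * x ^ 3 +
      10 * κ.b₈ * x ^ 2 + (κ.b₂ * κ.b₈ - κ.b₄ * κ.b₆) * x + (κ.b₄ * κ.b₈ - κ.b₆ ^ 2) =
      s 3 * (6 * x ^ 2 + κ.b₂ * x + κ.b₄) - κ.psi x ^ 2 := by
    rw [hs3, KummerLine.psi]
    have hrel := κ.rel_b
    linear_combination x ^ 2 * hrel
  rw [key] at hs4
  have e' : κ.N (2 • P) = x - s 3 / κ.psi x := by
    rw [sub_eq_iff_eq_add] at e
    rw [e, hs2, hs1]; ring
  rw [e'] at f1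
  have hF : 2 * (x - s 3 / κ.psi x + x) * ((x - s 3 / κ.psi x) * x) +
      κ.b₂ * ((x - s 3 / κ.psi x) * x) + κ.b₄ * (x - s 3 / κ.psi x + x) + κ.b₆ =
      κ.psi x - (s 3 / κ.psi x) * (6 * x ^ 2 + κ.b₂ * x + κ.b₄) + 2 * (s 3 / κ.psi x) ^ 2 * x := by
    have : κ.psi x = 4 * x ^ 3 + κ.b₂ * x ^ 2 + 2 * κ.b₄ * x + κ.b₆ := rfl
    linear_combination -this
  rw [hF] at f1
  rw [hs4]
  generalize κ.psi x = ps at *
  generalize s 3 = t at *
  have e4 : -((t * (6 * x ^ 2 + κ.b₂ * x + κ.b₄) - ps ^ 2) * s 2 * s 2 / t ^ 2) =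
    -((t * (6 * x ^ 2 + κ.b₂ * x + κ.b₄) - ps ^ 2) * ps / t ^ 2) := by
    rw [← hs2]; ring
  rw [e4]
  field_simp at f1 ⊢
  linear_combination f1

/-- `x_m - x_2` -/
lemma diff_m_two (h : IsPsi κ P s) {m : ℕ} (hm : 3 ≤ m) (h0 : Cl κ P s (m - 1)) (h1 : Cl κ P s m)
    (h2 : Cl κ P s (m + 1)) :
    κ.N (m • P) - κ.N (2 • P) = -(s (m + 2) * s (m - 2) / (s m ^ 2 * s 2 ^ 2)) := by
  obtain ⟨k, rfl⟩ : ∃ k, m = k + 2 := ⟨m - 2, by omega⟩
  have n0 := h.ne' (show k ≠ 0 by omega)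
  have n1 := h.ne' (show k + 1 ≠ 0 by omega)
  have n2 := h.ne' (show k + 2 ≠ 0 by omega)
  have n3 := h.ne' (show k + 3 ≠ 0 by omega)
  have n4 := h.ne' (show 2 ≠ 0 by omega)
  have e1 := rel_one h (by omega) h1 (κ.N P)
  have e2 := H_dup κ h.P0 (by have := (base_two h).1; rwa [two_nsmul] at this) (κ.N ((k + 2) • P))
  rw [H_symm', H_symm, ← e1, ← two_nsmul, h1.2, h2.2, h0.2, ← h.two] at e2
  simp only [show k + 2 + 1 + 1 = k + 4 from rfl, show k + 2 + 1 - 1 = k + 2 from rfl,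
    show k + 2 + 1 = k + 3 from rfl, show k + 2 - 1 = k + 1 from rfl,
    show k + 1 + 1 = k + 2 from rfl, show k + 1 - 1 = k from rfl,
    show k + 2 + 2 = k + 4 from rfl, show k + 2 - 2 = k from rfl] at e2 ⊢
  field_simp at e2 ⊢
  linear_combination -e2

/-- `x_{2m} - x_2` -/
lemma diff_2m_two (h : IsPsi κ P s) {m : ℕ} (hm : 2 ≤ m) (hC : ∀ k, 1 ≤ k → k ≤ 2 * m → Cl κ P s k) :
    κ.N ((2 * m) • P) - κ.N (2 • P) =
      -(s (2 * m + 2) * s (2 * m - 2) / (s (2 * m) ^ 2 * s 2 ^ 2)) := by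
  rcases hm.eq_or_lt with rfl | hm
  · have := diff_two h (m := 2) (by norm_num) (hC 2 (by norm_num) (by norm_num))
      (hC 4 (by norm_num) (by norm_num))
    simp only [Nat.reduceMul, Nat.reduceAdd, Nat.reduceSub] at this ⊢
    rw [this]
    have n2 := h.ne' (show 2 ≠ 0 by omega)
    have n4 := h.ne' (show 4 ≠ 0 by omega)
    field_simp
  obtain ⟨k, rfl⟩ : ∃ k, m = k + 2 := ⟨m - 2, by omega⟩
  have n0 := h.ne' (show k ≠ 0 by omega)
  have n1 := h.ne' (show k + 1 ≠ 0 by omega)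
  have n2 := h.ne' (show k + 2 ≠ 0 by omega)
  have n3 := h.ne' (show k + 3 ≠ 0 by omega)
  have n4 := h.ne' (show k + 4 ≠ 0 by omega)
  have n5 := h.ne' (show 2 ≠ 0 by omega)
  have n6 := h.ne' (show 2 * (k + 2) ≠ 0 by omega)
  have C0 := hC k (by omega) (by omega)
  have C1 := hC (k + 1) (by omega) (by omega)
  have C2 := hC (k + 2) (by omega) (by omega)
  have C3 := hC (k + 3) (by omega) (by omega)
  have C4 := hC (k + 4) (by omega) (by omega)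
  have CC := hC (2 * (k + 2)) (by omega) (by omega)
  have c := diff_m_two h (m := k + 2) (by omega) C1 C2 C3
  have tp := diff_two h (by omega) C2 C4
  have tm := diff_two h (by omega) C0 C2
  have hpsi := psi_m h (by omega) C2 (Or.inl C1) C3
  have hne : κ.N ((k + 2) • P) - κ.N (2 • P) ≠ 0 := by
    rw [c]
    exact neg_ne_zero.mpr (div_ne_zero (mul_ne_zero n4 n0)
      (mul_ne_zero (pow_ne_zero _ n2) (pow_ne_zero _ n5)))
  obtain ⟨g1, g2⟩ := ne_pm hne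
  have hdd : (k + 2) • P + (k + 2) • P = (2 * (k + 2)) • P := by
    rw [← add_nsmul, two_mul]
  have e1 := H_ne κ C2.1 (base_two h).1 g1 g2 (κ.N ((k + 2) • P))
  have e2 := H_dup κ C2.1 (by rw [hdd]; exact CC.1) (κ.N (2 • P))
  rw [H_symm', ← e1, hdd] at e2
  have a1 : (k + 2) • P + 2 • P = (k + 4) • P := by rw [← add_nsmul]
  have a2 : (k + 2) • P - 2 • P = k • P := by rw [add_nsmul]; abel
  have tm' : κ.N (k • P) - κ.N ((k + 2) • P) =
    (s (2 * (k + 1)) * s 2 / (s k ^ 2 * s (k + 2) ^ 2)) := by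
    linear_combination -tm
  rw [a1, a2, hpsi, c, show k + 4 = k + 2 + 2 from rfl, tp, tm'] at e2
  simp only [show k + 2 + 2 = k + 4 from rfl, show k + 2 - 2 = k from rfl,
    show k + 2 + 1 = k + 3 from rfl, show 2 * (k + 3) = 2 * (k + 2) + 2 from rfl,
    show 2 * (k + 2) - 2 = 2 * (k + 1) from rfl] at e2 ⊢
  field_simp at e2 ⊢
  linear_combination e2

/-- the odd step -/
lemma step_odd (h : IsPsi κ P s) {m : ℕ} (hm : 2 ≤ m) (hC : ∀ k, 1 ≤ k → k ≤ 2 * m → Cl κ P s k) :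
    Cl κ P s (2 * m + 1) := by
  have C0 := hC (2 * m) (by omega) le_rfl
  have C1 := hC (2 * m - 1) (by omega) (by omega)
  have hne := succ_ne h (by omega) C0
  refine ⟨hne, ?_⟩
  have d := diff_2m_two h hm hC
  have e1 := rel_one h (by omega) C0 (κ.N P)
  have e2 := H_dup κ h.P0 (by have := (base_two h).1; rwa [two_nsmul] at this) (κ.N ((2 * m) • P))
  have d' : κ.N (2 • P) - κ.N ((2 * m) • P) =
      (s (2 * m + 2) * s (2 * m - 2) / (s (2 * m) ^ 2 * s 2 ^ 2)) := by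
    linear_combination -d
  rw [H_symm', H_symm, ← e1, ← two_nsmul, d', C0.2, C1.2, ← h.two] at e2
  obtain ⟨k, rfl⟩ : ∃ k, m = k + 2 := ⟨m - 2, by omega⟩
  have n0 := h.ne' (show 2 * k + 2 ≠ 0 by omega)
  have n1 := h.ne' (show 2 * k + 3 ≠ 0 by omega)
  have n2 := h.ne' (show 2 * k + 4 ≠ 0 by omega)
  have n3 := h.ne' (show 2 * k + 5 ≠ 0 by omega)
  have n4 := h.ne' (show 2 ≠ 0 by omega)
  simp only [show 2 * (k + 2) = 2 * k + 4 by omega, show 2 * k + 4 + 2 = 2 * k + 6 from rfl,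
    show 2 * k + 4 - 2 = 2 * k + 2 from rfl, show 2 * k + 4 + 1 = 2 * k + 5 from rfl,
    show 2 * k + 4 - 1 = 2 * k + 3 from rfl, show 2 * k + 3 + 1 = 2 * k + 4 from rfl,
    show 2 * k + 3 - 1 = 2 * k + 2 from rfl, show 2 * k + 5 + 1 = 2 * k + 6 from rfl,
    show 2 * k + 5 - 1 = 2 * k + 4 from rfl] at e2 ⊢
  field_simp at e2 ⊢
  linear_combination e2

theorem Cl_all (h : IsPsi κ P s) {n : ℕ} (hn : 1 ≤ n) : Cl κ P s n := by
  induction n using Nat.strong_induction_on with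
  | _ n ih =>
    rcases hn.eq_or_lt with rfl | hn
    · refine ⟨by rw [one_smul]; exact h.P0, ?_⟩
      rw [one_smul]; simp [h.zero]
    rcases (show 2 ≤ n from hn).eq_or_lt with rfl | hn
    · exact base_two h
    rcases (show 3 ≤ n from hn).eq_or_lt with rfl | hn
    · exact base_three h
    rcases Nat.even_or_odd' n with ⟨m, rfl | rfl⟩
    · exact step_even h (by omega) (ih _ (by omega) (by omega)) (ih _ (by omega) (by omega))
        (ih _ (by omega) (by omega)) (ih _ (by omega) (by omega))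
    · exact step_odd h (by omega) (fun k h1 h2 => ih _ (by omega) (by omega))

end Fermat.Agent.DivPoly
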